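/-
PROJECT P (S44), brick [LOC], leaf Val/FixNorm (helper9): A CYCLIC STEP OF PRIME DEGREE `p` OVER A
DISCRETELY VALUED FIELD WITH THE SAME RESIDUE FIELD IS TOTALLY RAMIFIED - elementary form, no
completeness, no fundamental identity, no Kummer theory.

`K1 ≤ K'` subfields of a valued field `(L, v)`, `σ` an automorphism of `L` preserving `v` and `K'`,
with `σ ^ p = 1` on `K'` and `K1 = ` the fixed points of `σ` in `K'`.  `K1` is discrete with
uniformiser `π1`, and every unit of `K'` is congruent to an element of `K1` (same residue field).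
If `σ` moves some element of `K'`, then

* `exists_val_not_zpow` : some element of `K'` has its value outside `(v π1) ^ ℤ` (otherwise,
                          peeling `c - a`, `a ∈ K1`, the set of exponents of `v (c - a)` would have
                          no maximum although it is bounded by the exponent of `v (σ c - c)`);
* `exists_norm`         : the norm `∏ k < p, σ ^ k c` lies in `K1` and has value `(v c) ^ p`;
* `exists_uniformizer`  : `ϖ ∈ K'` with `(v ϖ) ^ p = v π1`, and every non-zero element of `K'`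
                          has value `(v ϖ) ^ j`.

The entrance `exists_fixed_not_fixed` produces an element fixed by a subgroup `H` and moved by `σ`
from an element `θ` with finite `H`-orbit whose `σ`-image is not in that orbit (orbit polynomial):
this replaces the Galois correspondence.

Mathlib only.
-/
import Mathlib

set_option autoImplicit false

namespace Fermat.Agent.S44.Val.FixNorm

open Polynomial

section Orbit

variable {L : Type*} [Field L] {Γ : Type*} [Group Γ] [MulSemiringAction Γ L]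

/-- **Orbit polynomial.** `θ` has a finite `H`-orbit and `σ • θ` is not in it: some coefficient of
`∏ (X - θ')` over the orbit is fixed by `H` and moved by `σ`. -/
theorem exists_fixed_not_fixed (H : Subgroup Γ) (σ : Γ) (θ : L)
    (hfin : {c : L | ∃ h ∈ H, c = h • θ}.Finite) (hσθ : ∀ h ∈ H, σ • θ ≠ h • θ) :
    ∃ c : L, (∀ h ∈ H, h • c = c) ∧ σ • c ≠ c := by
  classical
  set S : Finset L := hfin.toFinset with hS
  have hmem : ∀ c, c ∈ S ↔ ∃ h ∈ H, c = h • θ := fun c => by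
    rw [hS, Set.Finite.mem_toFinset]; rfl
  set P : L[X] := ∏ c ∈ S, (X - C c) with hP
  have hmap : ∀ τ : Γ, P.map (MulSemiringAction.toRingHom Γ L τ) = ∏ c ∈ S, (X - C (τ • c)) := by
    intro τ
    rw [hP, Polynomial.map_prod]
    refine Finset.prod_congr rfl fun c _ => ?_
    rw [Polynomial.map_sub, Polynomial.map_X, Polynomial.map_C]
    rfl
  have hH : ∀ h ∈ H, P.map (MulSemiringAction.toRingHom Γ L h) = P := by
    intro h hh
    rw [hmap h]
    have himg : S.image (fun c => h • c) = S := by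
      ext c
      rw [Finset.mem_image]
      constructor
      · rintro ⟨c', hc', rfl⟩
        obtain ⟨h', hh', rfl⟩ := (hmem c').1 hc'
        exact (hmem _).2 ⟨h * h', H.mul_mem hh hh', (mul_smul h h' θ).symm⟩
      · intro hc
        obtain ⟨h', hh', rfl⟩ := (hmem c).1 hc
        refine ⟨(h⁻¹ * h') • θ, (hmem _).2 ⟨h⁻¹ * h', H.mul_mem (H.inv_mem hh) hh', rfl⟩, ?_⟩
        show h • ((h⁻¹ * h') • θ) = h' • θ
        rw [← mul_smul, mul_inv_cancel_left]
    calc ∏ c ∈ S, (X - C (h • c)) = ∏ c ∈ S.image (fun c => h • c), (X - C c) := by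
          rw [Finset.prod_image]
          intro a _ b _ hab
          exact MulAction.injective h hab
      _ = P := by rw [himg]
  by_contra hcon
  push Not at hcon
  -- every coefficient is `H`-fixed, hence `σ`-fixed
  have hcoef : ∀ i, σ • (P.coeff i) = P.coeff i := by
    intro i
    refine hcon _ fun h hh => ?_
    have := congrArg (fun Q : L[X] => Q.coeff i) (hH h hh)
    simpa [Polynomial.coeff_map] using this
  have hσP : P.map (MulSemiringAction.toRingHom Γ L σ) = P := by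
    ext i
    rw [Polynomial.coeff_map]
    exact hcoef i
  have hθS : θ ∈ S := (hmem θ).2 ⟨1, H.one_mem, (one_smul Γ θ).symm⟩
  have hroot : P.eval θ = 0 := by
    rw [hP, Polynomial.eval_prod]
    exact Finset.prod_eq_zero hθS (by simp)
  have hroot' : P.eval (σ • θ) = 0 := by
    have h1 : (P.map (MulSemiringAction.toRingHom Γ L σ)).eval (σ • θ) = σ • (P.eval θ) := by
      rw [Polynomial.eval_map]
      exact Polynomial.eval₂_at_apply (MulSemiringAction.toRingHom Γ L σ) θ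
    rw [hσP, hroot, smul_zero] at h1
    exact h1
  rw [hP, Polynomial.eval_prod, Finset.prod_eq_zero_iff] at hroot'
  obtain ⟨c, hc, hc0⟩ := hroot'
  rw [Polynomial.eval_sub, Polynomial.eval_X, Polynomial.eval_C, sub_eq_zero] at hc0
  obtain ⟨h, hh, rfl⟩ := (hmem c).1 hc
  exact hσθ h hh hc0

end Orbit

section Step

variable {L : Type*} [Field L] {Γ : Type*} [LinearOrderedCommGroupWithZero Γ] (v : Valuation L Γ)
variable (K1 K' : Subfield L) (σ : L ≃+* L)

/-- the iterates of a valuation-preserving automorphism preserve the valuation -/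
theorem val_pow_apply (hσv : ∀ a, v (σ a) = v a) (k : ℕ) (a : L) : v ((σ ^ k) a) = v a := by
  induction k with
  | zero => simp
  | succ k ih =>
    rw [pow_succ', RingAut.mul_apply, hσv, ih]

/-- the iterates of an automorphism preserving `K'` preserve `K'` -/
theorem pow_apply_mem (hσK : ∀ c ∈ K', σ c ∈ K') (k : ℕ) {c : L} (hc : c ∈ K') :
    (σ ^ k) c ∈ K' := by
  induction k with
  | zero => simpa using hc
  | succ k ih =>
    rw [pow_succ', RingAut.mul_apply]
    exact hσK _ ih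

/-- the powers of `σ` are its iterates -/
theorem pow_apply_eq_iterate (k : ℕ) (a : L) : (σ ^ k) a = (⇑σ)^[k] a := by
  induction k with
  | zero => simp
  | succ k ih =>
    rw [pow_succ', RingAut.mul_apply, ih, Function.iterate_succ_apply']

/-- **Norm, membership.** `σ ^ p = 1` on `K'` and the `σ`-fixed points of `K'` lie in `K1`: the norm
of `c ∈ K'` lies in `K1`. -/
theorem norm_mem (hσK : ∀ c ∈ K', σ c ∈ K')
    (hfix : ∀ c ∈ K', σ c = c → c ∈ K1) (p : ℕ) (hσp : ∀ c ∈ K', (σ ^ p) c = c)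
    {c : L} (hc : c ∈ K') : ∏ k ∈ Finset.range p, (σ ^ k) c ∈ K1 := by
  refine hfix _ ?_ ?_
  · exact Subfield.prod_mem K' fun k _ => pow_apply_mem K' σ hσK k hc
  · rw [map_prod]
    have h1 : ∀ k, σ ((σ ^ k) c) = (σ ^ (k + 1)) c := fun k => by
      rw [pow_succ', RingAut.mul_apply]
    simp_rw [h1]
    have h2 := Finset.prod_range_succ' (fun k => (σ ^ k) c) p
    have h3 := Finset.prod_range_succ (fun k => (σ ^ k) c) p
    rw [h3, hσp c hc] at h2
    simp only [pow_zero, RingAut.one_apply] at h2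
    by_cases hc0 : c = 0
    · subst hc0; simp
    · exact (mul_right_cancel₀ hc0 h2).symm

/-- **Norm, valuation.** -/
theorem val_norm (hσv : ∀ a, v (σ a) = v a) (p : ℕ) (c : L) :
    v (∏ k ∈ Finset.range p, (σ ^ k) c) = v c ^ p := by
  rw [map_prod]
  simp_rw [val_pow_apply v σ hσv]
  rw [Finset.prod_const, Finset.card_range]

/-- **Norm.** `σ ^ p = 1` on `K'` and the `σ`-fixed points of `K'` lie in `K1`: the norm of
`c ∈ K'` lies in `K1` and has value `(v c) ^ p`. -/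
theorem exists_norm (hσv : ∀ a, v (σ a) = v a) (hσK : ∀ c ∈ K', σ c ∈ K')
    (hfix : ∀ c ∈ K', σ c = c → c ∈ K1) (p : ℕ) (hσp : ∀ c ∈ K', (σ ^ p) c = c)
    {c : L} (hc : c ∈ K') : ∃ N ∈ K1, v N = v c ^ p :=
  ⟨_, norm_mem K1 K' σ hσK hfix p hσp hc, val_norm v σ hσv p c⟩

variable {v K1 K' σ}

/-- **No immediate step.** `K1` discrete with uniformiser `π1`, every unit of `K'` congruent to
an element of `K1`, `σ` the identity on `K1` and moving `c ∈ K'`: some element of `K'` has its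
value outside `(v π1) ^ ℤ`. -/
theorem exists_val_not_zpow (hσv : ∀ a, v (σ a) = v a) (hσK : ∀ c ∈ K', σ c ∈ K')
    (hσ1 : ∀ a ∈ K1, σ a = a) (hK : K1 ≤ K') {π1 : L} (hπK : π1 ∈ K1) (hπ0 : π1 ≠ 0)
    (hπ1 : v π1 < 1)
    (hres : ∀ u ∈ K', v u = 1 → ∃ u0 ∈ K1, v (u - u0) < 1)
    {c : L} (hc : c ∈ K') (hσc : σ c ≠ c) :
    ∃ c' ∈ K', c' ≠ 0 ∧ ∀ j : ℤ, v c' ≠ v π1 ^ j := by
  by_contra hcon
  push Not at hcon
  have hγ0 : v π1 ≠ 0 := (Valuation.ne_zero_iff _).2 hπ0
  have hpos : 0 < v π1 := zero_lt_iff.2 hγ0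
  -- the displacement
  have hd : σ c - c ∈ K' := K'.sub_mem (hσK c hc) hc
  have hd0 : σ c - c ≠ 0 := sub_ne_zero.2 hσc
  obtain ⟨j0, hj0⟩ := hcon _ hd hd0
  -- the exponents of `v (c - a)`, `a ∈ K1`
  have hbdd : ∀ j : ℤ, (∃ a ∈ K1, v (c - a) = v π1 ^ j) → j ≤ j0 := by
    rintro j ⟨a, ha, hva⟩
    have h1 : σ c - c = σ (c - a) - (c - a) := by
      rw [map_sub, hσ1 a ha]; ring
    have h2 : v (σ c - c) ≤ v (c - a) := by
      rw [h1]
      refine le_trans (Valuation.map_sub v _ _) ?_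
      rw [hσv, max_self]
    rw [hj0, hva] at h2
    exact (zpow_le_zpow_iff_right_of_lt_one₀ hpos hπ1).1 h2
  have hc0 : c ≠ 0 := by
    rintro rfl
    exact hσc (map_zero σ)
  obtain ⟨jc, hjc⟩ := hcon c hc hc0
  obtain ⟨j, ⟨a, ha, hva⟩, hmax⟩ := Int.exists_greatest_of_bdd
    (P := fun j : ℤ => ∃ a ∈ K1, v (c - a) = v π1 ^ j) ⟨j0, hbdd⟩
    ⟨jc, 0, K1.zero_mem, by rw [sub_zero]; exact hjc⟩
  -- peel once more
  have hr : c - a ∈ K' := K'.sub_mem hc (hK ha)
  have hπj : π1 ^ j ∈ K1 := K1.zpow_mem hπK j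
  have hπj0 : π1 ^ j ≠ 0 := zpow_ne_zero j hπ0
  have hu : (c - a) / π1 ^ j ∈ K' := K'.div_mem hr (hK hπj)
  have hvu : v ((c - a) / π1 ^ j) = 1 := by
    rw [map_div₀, map_zpow₀, hva]
    exact div_self (zpow_ne_zero j hγ0)
  obtain ⟨u0, hu0, hlt⟩ := hres _ hu hvu
  have ha' : a + π1 ^ j * u0 ∈ K1 := K1.add_mem ha (K1.mul_mem hπj hu0)
  have heq : c - (a + π1 ^ j * u0) = π1 ^ j * ((c - a) / π1 ^ j - u0) := by
    field_simp
    ring
  have hne : c - (a + π1 ^ j * u0) ≠ 0 := by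
    intro h
    have : c = a + π1 ^ j * u0 := sub_eq_zero.1 h
    exact hσc (by rw [this]; exact hσ1 _ ha')
  obtain ⟨j', hj'⟩ := hcon _ (K'.sub_mem hc (hK ha')) hne
  have hlt' : v (c - (a + π1 ^ j * u0)) < v π1 ^ j := by
    rw [heq, map_mul, map_zpow₀]
    calc v π1 ^ j * v ((c - a) / π1 ^ j - u0) < v π1 ^ j * 1 :=
          mul_lt_mul_of_pos_left hlt (zpow_pos hpos j)
      _ = v π1 ^ j := mul_one _
  rw [hj'] at hlt'
  have hjj' : j < j' := (zpow_lt_zpow_iff_right_of_lt_one₀ hpos hπ1).1 hlt'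
  have := hmax j' ⟨_, ha', hj'⟩
  omega

/-- **The uniformiser of the step.** In the situation of `exists_val_not_zpow`, with `σ ^ p = 1`
on `K'` (`p` prime) and `K1` discrete with uniformiser `π1`: there is `ϖ ∈ K'` with
`(v ϖ) ^ p = v π1`, and every non-zero element of `K'` has value `(v ϖ) ^ j`. -/
theorem exists_uniformizer (hσv : ∀ a, v (σ a) = v a) (hσK : ∀ c ∈ K', σ c ∈ K')
    (hσ1 : ∀ a ∈ K1, σ a = a) (hK : K1 ≤ K') (hfix : ∀ c ∈ K', σ c = c → c ∈ K1)
    {p : ℕ} (hp : p.Prime) (hσp : ∀ c ∈ K', (σ ^ p) c = c)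
    {π1 : L} (hπK : π1 ∈ K1) (hπ0 : π1 ≠ 0) (hπ1 : v π1 < 1)
    (hdisc : ∀ c ∈ K1, c ≠ 0 → ∃ j : ℤ, v c = v π1 ^ j)
    (hres : ∀ u ∈ K', v u = 1 → ∃ u0 ∈ K1, v (u - u0) < 1)
    {c : L} (hc : c ∈ K') (hσc : σ c ≠ c) :
    ∃ ϖ ∈ K', ϖ ≠ 0 ∧ v ϖ ^ p = v π1 ∧ ∀ c ∈ K', c ≠ 0 → ∃ j : ℤ, v c = v ϖ ^ j := by
  have hγ0 : v π1 ≠ 0 := (Valuation.ne_zero_iff _).2 hπ0
  obtain ⟨c', hc', hc'0, hnot⟩ :=
    exists_val_not_zpow hσv hσK hσ1 hK hπK hπ0 hπ1 hres hc hσc
  have hvc'0 : v c' ≠ 0 := (Valuation.ne_zero_iff _).2 hc'0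
  obtain ⟨N, hN, hvN⟩ := exists_norm v K1 K' σ hσv hσK hfix p hσp hc'
  have hN0 : N ≠ 0 := by
    rintro rfl
    rw [map_zero] at hvN
    exact pow_ne_zero p hvc'0 hvN.symm
  obtain ⟨j, hj⟩ := hdisc N hN hN0
  have hpj : ¬ (p : ℤ) ∣ j := by
    rintro ⟨m, rfl⟩
    refine hnot m ((pow_left_inj hp.ne_zero).1 ?_)
    rw [← hvN, hj, ← zpow_natCast (v π1 ^ m) p, ← zpow_mul, mul_comm]
  obtain ⟨b, a, hab⟩ :=
    ((Nat.prime_iff_prime_int.mp hp).irreducible.coprime_iff_not_dvd).2 hpj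
  -- `b * p + a * j = 1`
  have hϖp : v (c' ^ a * π1 ^ b) ^ p = v π1 := by
    rw [map_mul, map_zpow₀, map_zpow₀, mul_pow, ← zpow_natCast (v c' ^ a) p, ← zpow_mul,
      mul_comm a (p : ℤ), zpow_mul, zpow_natCast, ← hvN, hj, ← zpow_mul,
      ← zpow_natCast (v π1 ^ b) p, ← zpow_mul, ← zpow_add₀ hγ0]
    have : j * a + b * (p : ℤ) = 1 := by linarith
    rw [this, zpow_one]
  refine ⟨c' ^ a * π1 ^ b, K'.mul_mem (K'.zpow_mem hc' a) (K'.zpow_mem (hK hπK) b),
    mul_ne_zero (zpow_ne_zero a hc'0) (zpow_ne_zero b hπ0), hϖp, ?_⟩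
  intro c₁ hc₁ hc₁0
  obtain ⟨N₁, hN₁, hvN₁⟩ := exists_norm v K1 K' σ hσv hσK hfix p hσp hc₁
  have hN₁0 : N₁ ≠ 0 := by
    rintro rfl
    rw [map_zero] at hvN₁
    exact pow_ne_zero p ((Valuation.ne_zero_iff _).2 hc₁0) hvN₁.symm
  obtain ⟨j₁, hj₁⟩ := hdisc N₁ hN₁ hN₁0
  refine ⟨j₁, (pow_left_inj hp.ne_zero).1 ?_⟩
  have hswap : ∀ γ : Γ, (γ ^ j₁) ^ p = (γ ^ p) ^ j₁ := fun γ => by
    rw [← zpow_natCast (γ ^ j₁) p, ← zpow_mul, mul_comm j₁ (p : ℤ), zpow_mul, zpow_natCast]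
  rw [← hvN₁, hj₁, hswap, hϖp]

end Step

end Fermat.Agent.S44.Val.FixNorm
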