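/-
PROJECT P (S44), Val/Commens (helper15): THE VALUE GROUP OF `ℚ̄` IS COMMENSURABLE WITH `v(ℓ)`.

`L` an algebraic extension of `ℚ`, `A` a valuation subring of `L` lying over the prime `ℓ`.

* `exists_pow_valuation_eq_zpow` : every `c ≠ 0` has `v(c)^e = v(ℓ)^m` with `e ≥ 1`, `m : ℤ`;
* `exists_pow_eq_unit_mul_pow`   : two non-zero non-units `c`, `c'` of `A` satisfy
  `c^a = u * c'^b` with `a, b ≥ 1` and `u` a unit of `A`.

The second statement is, literally, the rationality hypothesis `(a, b, u)` of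
`S44/Core/TubeCount.exists_unique_zero` (the coordinate of the tube of a node), for the values
`c = ξ(P)`, `c' = thick / c` at an ARBITRARY point `P` of the tube over `ℚ̄`.

Landed `S34/ArchComap` (`exists_pow_valuation_eq`) + `S05/LocalVal` only.
-/
import Mathlib
import Fermat.Agent.S34.ArchComap

set_option autoImplicit false

namespace Fermat.Agent.S44.Val.Commens

variable {L : Type*} [Field L] {ℓ : ℕ} (A : ValuationSubring L)

section Gamma

variable {Γ : Type*} [LinearOrderedCommGroupWithZero Γ]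

theorem zpow_pos_of_lt_one {g : Γ} (hg0 : g ≠ 0) (hg1 : g < 1) {m : ℤ} (h : g ^ m < 1) :
    0 < m := by
  by_contra hm
  rw [not_lt] at hm
  obtain ⟨n, rfl⟩ : ∃ n : ℕ, m = -(n : ℤ) := ⟨(-m).toNat, by omega⟩
  rw [zpow_neg, zpow_natCast] at h
  have h1 : g ^ n ≤ 1 := pow_le_one₀ zero_le hg1.le
  have h0 : g ^ n ≠ 0 := pow_ne_zero _ hg0
  have h2 : (1 : Γ) ≤ (g ^ n)⁻¹ := (one_le_inv₀ (lt_of_le_of_ne zero_le h0.symm)).mpr h1
  exact absurd h (not_lt.mpr h2)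

end Gamma

/-- the valuation of a non-zero natural number is a power of `v(ℓ)` -/
theorem valuation_natCast (hℓ : ℓ.Prime) (hA : A.LiesOverPrime ℓ) {n : ℕ} (hn : n ≠ 0) :
    ∃ a : ℕ, A.valuation (n : L) = A.valuation (ℓ : L) ^ a := by
  obtain ⟨a, r, hr, rfl⟩ := Nat.exists_eq_pow_mul_and_not_dvd hn ℓ hℓ.ne_one
  refine ⟨a, ?_⟩
  have h1 : ¬ (ℓ : ℤ) ∣ (r : ℤ) := fun h => hr (Int.natCast_dvd_natCast.mp h)
  have h2 := Fermat.Agent.S05.LocalVal.intCast_valuation_eq_one (A := A) hℓ hA h1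
  rw [Int.cast_natCast] at h2
  rw [Nat.cast_mul, Nat.cast_pow, map_mul, map_pow, h2, mul_one]

variable [CharZero L]

theorem valuation_ell_ne_zero (hℓ : ℓ.Prime) : A.valuation (ℓ : L) ≠ 0 :=
  (Valuation.ne_zero_iff _).mpr (Nat.cast_ne_zero.mpr hℓ.ne_zero)

/-- the valuation of a non-zero rational number is an integral power of `v(ℓ)` -/
theorem valuation_ratCast (hℓ : ℓ.Prime) (hA : A.LiesOverPrime ℓ) {x : ℚ} (hx : x ≠ 0) :
    ∃ m : ℤ, A.valuation (algebraMap ℚ L x) = A.valuation (ℓ : L) ^ m := by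
  have hnum : x.num.natAbs ≠ 0 := Int.natAbs_ne_zero.mpr (Rat.num_ne_zero.mpr hx)
  obtain ⟨a, ha⟩ := valuation_natCast A hℓ hA hnum
  obtain ⟨b, hb⟩ := valuation_natCast A hℓ hA x.den_ne_zero
  refine ⟨(a : ℤ) - b, ?_⟩
  have h1 : A.valuation ((x.num : ℤ) : L) = A.valuation ((x.num.natAbs : ℕ) : L) := by
    rcases Int.natAbs_eq x.num with h | h
    · conv_lhs => rw [h, Int.cast_natCast]
    · conv_lhs => rw [h, Int.cast_neg, Int.cast_natCast, Valuation.map_neg]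
  have hden : ((x.den : ℕ) : L) ≠ 0 := Nat.cast_ne_zero.mpr x.den_ne_zero
  have h2 : algebraMap ℚ L x = ((x.num : ℤ) : L) / ((x.den : ℕ) : L) := by
    rw [eq_ratCast]
    exact Rat.cast_def x
  have hg0 := valuation_ell_ne_zero (ℓ := ℓ) A hℓ
  rw [h2, map_div₀, h1, ha, hb, zpow_sub₀ hg0, zpow_natCast, zpow_natCast]

variable [Algebra.IsAlgebraic ℚ L]

/-- **Commensurability.**  Some power `e ≥ 1` of `v(c)` is an integral power of `v(ℓ)`. -/
theorem exists_pow_valuation_eq_zpow (hℓ : ℓ.Prime) (hA : A.LiesOverPrime ℓ) {c : L}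
    (hc : c ≠ 0) :
    ∃ e : ℕ, e ≠ 0 ∧ ∃ m : ℤ, A.valuation c ^ e = A.valuation (ℓ : L) ^ m := by
  obtain ⟨e, he, f, hf0, hf⟩ := Fermat.Agent.S34.ArchComap.exists_pow_valuation_eq (F := ℚ) A hc
    (Algebra.IsAlgebraic.isAlgebraic c)
  obtain ⟨m, hm⟩ := valuation_ratCast A hℓ hA hf0
  exact ⟨e, he, m, by rw [← map_pow, hf, hm]⟩

/-- **The rationality hypothesis of the tube coordinate.**  Two non-zero non-units of `A` have
powers which differ by a unit. -/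
theorem exists_pow_eq_unit_mul_pow (hℓ : ℓ.Prime) (hA : A.LiesOverPrime ℓ) (c c' : A)
    (hc : c ∈ IsLocalRing.maximalIdeal A) (hc' : c' ∈ IsLocalRing.maximalIdeal A)
    (hc0 : (c : L) ≠ 0) (hc0' : (c' : L) ≠ 0) :
    ∃ a b : ℕ, 0 < a ∧ 0 < b ∧ ∃ u : Aˣ, (c : L) ^ a = ((u : A) : L) * (c' : L) ^ b := by
  have hg0 := valuation_ell_ne_zero (ℓ := ℓ) A hℓ
  have hg1 : A.valuation (ℓ : L) < 1 := A.mem_nonunits_iff.mp hA
  have hv : ∀ d : A, d ∈ IsLocalRing.maximalIdeal A → A.valuation (d : L) < 1 := fun d hd => by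
    rw [IsLocalRing.mem_maximalIdeal, mem_nonunits_iff] at hd
    exact lt_of_le_of_ne (A.valuation_le_one d) (fun h => hd ((A.valuation_eq_one_iff d).mpr h))
  obtain ⟨e, he, m, hm⟩ := exists_pow_valuation_eq_zpow A hℓ hA hc0
  obtain ⟨e', he', m', hm'⟩ := exists_pow_valuation_eq_zpow A hℓ hA hc0'
  have hmpos : 0 < m := zpow_pos_of_lt_one hg0 hg1 (by
    rw [← hm]; exact pow_lt_one₀ zero_le (hv c hc) he)
  have hmpos' : 0 < m' := zpow_pos_of_lt_one hg0 hg1 (by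
    rw [← hm']; exact pow_lt_one₀ zero_le (hv c' hc') he')
  obtain ⟨n, rfl⟩ : ∃ n : ℕ, m = (n : ℤ) := ⟨m.toNat, by omega⟩
  obtain ⟨n', rfl⟩ : ∃ n' : ℕ, m' = (n' : ℤ) := ⟨m'.toNat, by omega⟩
  rw [zpow_natCast] at hm hm'
  have hn : 0 < n := by exact_mod_cast hmpos
  have hn' : 0 < n' := by exact_mod_cast hmpos'
  refine ⟨e * n', e' * n, Nat.mul_pos (Nat.pos_of_ne_zero he) hn',
    Nat.mul_pos (Nat.pos_of_ne_zero he') hn, ?_⟩
  have hval : A.valuation ((c : L) ^ (e * n') / (c' : L) ^ (e' * n)) = 1 := by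
    rw [map_div₀, map_pow, map_pow, pow_mul, pow_mul, hm, hm', ← pow_mul, ← pow_mul,
      mul_comm n n']
    exact div_self (pow_ne_zero _ hg0)
  have hmem : (c : L) ^ (e * n') / (c' : L) ^ (e' * n) ∈ A :=
    (A.valuation_le_one_iff _).mp hval.le
  have hunit : IsUnit (⟨_, hmem⟩ : A) := (A.valuation_eq_one_iff ⟨_, hmem⟩).mpr hval
  refine ⟨hunit.unit, ?_⟩
  rw [IsUnit.unit_spec]
  show (c : L) ^ (e * n') = (c : L) ^ (e * n') / (c' : L) ^ (e' * n) * (c' : L) ^ (e' * n)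
  rw [div_mul_cancel₀ _ (pow_ne_zero _ hc0')]

end Fermat.Agent.S44.Val.Commens
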